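/-
FROB (Frobenius density theorem), algebraic core, part 1 (helper824).

Ring-level "local" statements at one prime.  Setting: a finite group `G` acts on a ring `B`
with invariants `ℤ` (think `B = 𝓞 L`, `G = Gal(L/ℚ)`), `H ≤ G` is a subgroup and `A` is a ring
with `B^H = A` (think `A = 𝓞 (L^H)`).

* `stabilizer_eq_zpowers`: trivial inertia ⇒ decomposition group = ⟨Frobenius⟩.
* `card_eq_of_stabilizer_le`, `stabilizer_le_of_card_eq`: for a prime `Q` of `B` with trivial
  inertia, the prime `Q ∩ A` has the same residue field as `Q ∩ ℤ` iff `D_Q ≤ H`.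
* `sum_card_stabilizer_primesOver`: `∑_{Q ∣ 𝔭} |D_Q| = |H|` if `D_Q ≤ H`.
* `sum_card_stabilizer_eq`: `∑_{Q ∣ p, D_Q ≤ H} |D_Q| = |H| · #{𝔭 ∣ p prime of A of degree one}`.
-/
import Mathlib

set_option autoImplicit false

namespace Fermat.Agent.Lib.Frob.H824

open Ideal Pointwise MulAction

section Local

variable {B : Type*} [CommRing B] {G : Type*} [Group G] [MulSemiringAction G B]

/-- Iterating an arithmetic Frobenius. -/
theorem isArithFrobAt_pow_mk {Q : Ideal B} {φ : G} (hφ : IsArithFrobAt ℤ φ Q) (n : ℕ) (x : B) :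
    Ideal.Quotient.mk Q ((φ ^ n) • x) =
      (Ideal.Quotient.mk Q x) ^ (Nat.card (ℤ ⧸ Q.under ℤ) ^ n) := by
  induction n generalizing x with
  | zero => simp
  | succ n ih =>
    rw [pow_succ, mul_smul, ih, pow_succ, pow_mul]
    have := hφ.mk_apply x
    simp only [MulSemiringAction.toAlgHom_apply] at this
    rw [this, ← pow_mul, ← pow_mul, mul_comm]

attribute [local instance] Ideal.Quotient.field in
/-- When the inertia group at `Q` is trivial, the decomposition group (stabilizer) of `Q`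
is generated by any arithmetic Frobenius at `Q`. -/
theorem stabilizer_eq_zpowers (Q : Ideal B) [Q.IsPrime] [Finite (B ⧸ Q)]
    (hI : Q.inertia G = ⊥) (φ : G) (hφ : IsArithFrobAt ℤ φ Q) :
    stabilizer G Q = Subgroup.zpowers φ := by
  apply le_antisymm _ (Subgroup.zpowers_le.mpr hφ.mem_stabilizer)
  intro σ hσ
  let P := Q.under ℤ
  have hQmax : Q.IsMaximal :=
    Ideal.Quotient.maximal_of_isField _ (Finite.isField_of_domain (B ⧸ Q))
  have hfin : Finite (ℤ ⧸ P) := .of_injective _ Ideal.algebraMap_quotient_injective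
  have hPmax : P.IsMaximal :=
    Ideal.Quotient.maximal_of_isField _ (Finite.isField_of_domain (ℤ ⧸ P))
  cases nonempty_fintype (ℤ ⧸ P)
  have hsurj := (FiniteField.bijective_frobeniusAlgEquivOfAlgebraic_pow (ℤ ⧸ P) (B ⧸ Q)).2
  obtain ⟨n, hn⟩ := hsurj (Ideal.Quotient.stabilizerHom Q P G ⟨σ, hσ⟩)
  have hmk : ∀ y : B, Ideal.Quotient.mk Q (σ • y) = Ideal.Quotient.mk Q ((φ ^ n.1) • y) := by
    intro y
    have h1 := DFunLike.congr_fun hn (Ideal.Quotient.mk Q y)
    simp only [AlgEquiv.coe_pow, FiniteField.coe_frobeniusAlgEquivOfAlgebraic_iterate] at h1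
    rw [isArithFrobAt_pow_mk hφ, Nat.card_eq_fintype_card]
    rw [h1]
    rfl
  have key : σ * (φ ^ n.1)⁻¹ ∈ Q.inertia G := by
    intro x
    change (σ * (φ ^ n.1)⁻¹) • x - x ∈ Q
    rw [← Ideal.Quotient.eq, mul_smul, hmk, smul_inv_smul]
  rw [hI, Subgroup.mem_bot, mul_inv_eq_one] at key
  exact key ▸ Subgroup.pow_mem _ (Subgroup.mem_zpowers φ) _

theorem card_stabilizer_smul (σ : G) (Q : Ideal B) :
    Nat.card (stabilizer G (σ • Q)) = Nat.card (stabilizer G Q) := by
  rw [stabilizer_smul_eq_stabilizer_map_conj]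
  exact Nat.card_congr
    ((stabilizer G Q).equivMapOfInjective _ (MulAut.conj σ).injective).symm.toEquiv

theorem stabilizer_subgroup_eq (H : Subgroup G) (Q : Ideal B) :
    stabilizer H Q = (stabilizer G Q).subgroupOf H := by
  ext h
  simp [mem_stabilizer_iff, Subgroup.mem_subgroupOf, Subgroup.smul_def]

end Local

section Under

variable {A B : Type*} [CommRing A] [CommRing B] [Algebra A B]
  {G : Type*} [Group G] [Finite G] [MulSemiringAction G B] [Algebra.IsInvariant ℤ B G]
  (H : Subgroup G) [SMulCommClass H A B]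

attribute [local instance] Ideal.Quotient.field in
/-- If the decomposition group of `Q` is contained in `H`, then `Q ∩ A` has the same
residue field cardinality as `Q ∩ ℤ` ("degree one"). -/
theorem card_eq_of_stabilizer_le (Q : Ideal B) [Q.IsPrime] [Finite (B ⧸ Q)]
    (hle : stabilizer G Q ≤ H) :
    Nat.card (A ⧸ Q.under A) = Nat.card (ℤ ⧸ Q.under ℤ) := by
  obtain ⟨φ, hφ⟩ := IsArithFrobAt.exists_of_isInvariant ℤ G Q
  have hφH : φ ∈ H := hle hφ.mem_stabilizer
  set 𝔭 := Q.under A with h𝔭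
  set P := Q.under ℤ with hP
  have hPp : 𝔭.under ℤ = P := by
    rw [h𝔭, hP]; exact Ideal.under_under ..
  have hfinA : Finite (A ⧸ 𝔭) := .of_injective _ Ideal.algebraMap_quotient_injective
  have hfinZ : Finite (ℤ ⧸ P) := .of_injective _ Ideal.algebraMap_quotient_injective
  have h𝔭max : 𝔭.IsMaximal :=
    Ideal.Quotient.maximal_of_isField _ (Finite.isField_of_domain (A ⧸ 𝔭))
  have hPmax : P.IsMaximal :=
    Ideal.Quotient.maximal_of_isField _ (Finite.isField_of_domain (ℤ ⧸ P))
  have : 𝔭.LiesOver P := ⟨hPp.symm⟩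
  cases nonempty_fintype (ℤ ⧸ P)
  cases nonempty_fintype (A ⧸ 𝔭)
  -- every element of `A ⧸ 𝔭` is fixed by the `q`-power map
  have hpow : ∀ x : A ⧸ 𝔭, x ^ Fintype.card (ℤ ⧸ P) = x := by
    intro x
    obtain ⟨a, rfl⟩ := Ideal.Quotient.mk_surjective x
    rw [← map_pow, Ideal.Quotient.eq, h𝔭, Ideal.mem_comap, map_sub, map_pow]
    have h1 := hφ (algebraMap A B a)
    have h2 : φ • (algebraMap A B a) = algebraMap A B a :=
      smul_algebraMap (⟨φ, hφH⟩ : H) a
    simp only [MulSemiringAction.toAlgHom_apply, h2, Nat.card_eq_fintype_card] at h1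
    have := Q.neg_mem h1
    rwa [neg_sub] at this
  have hone : FiniteField.frobeniusAlgHom (ℤ ⧸ P) (A ⧸ 𝔭) = 1 := by
    ext x
    simp [hpow]
  have hfr : Module.finrank (ℤ ⧸ P) (A ⧸ 𝔭) = 1 := by
    rw [← FiniteField.orderOf_frobeniusAlgHom, hone, orderOf_one]
  rw [Nat.card_eq_fintype_card, Nat.card_eq_fintype_card,
    Module.card_eq_pow_finrank (K := ℤ ⧸ P) (V := A ⧸ 𝔭), hfr, pow_one]

variable [Algebra.IsInvariant A B H]

/-- If `Q` has trivial inertia and `Q ∩ A` has the same residue field cardinality as `Q ∩ ℤ`,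
then the decomposition group of `Q` is contained in `H`. -/
theorem stabilizer_le_of_card_eq (Q : Ideal B) [Q.IsPrime] [Finite (B ⧸ Q)]
    (hI : Q.inertia G = ⊥)
    (hcard : Nat.card (A ⧸ Q.under A) = Nat.card (ℤ ⧸ Q.under ℤ)) :
    stabilizer G Q ≤ H := by
  obtain ⟨φ, hφ⟩ := IsArithFrobAt.exists_of_isInvariant ℤ G Q
  obtain ⟨ψ, hψ⟩ := IsArithFrobAt.exists_of_isInvariant A H Q
  have hψ' : IsArithFrobAt ℤ (ψ : G) Q := by
    intro x
    have := hψ x
    rw [hcard] at this
    exact this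
  have h1 := hψ'.mul_inv_mem_inertia hφ
  rw [hI, Subgroup.mem_bot, mul_inv_eq_one] at h1
  rw [stabilizer_eq_zpowers Q hI φ hφ, Subgroup.zpowers_le, ← h1]
  exact ψ.2

omit [Algebra.IsInvariant ℤ B G] in
/-- The primes of `B` over a prime `𝔭` of `A = B^H`: the sum of the orders of the
decomposition groups (in `G`) equals `|H|`, provided one (hence all) of them is contained in
`H`. -/
theorem sum_card_stabilizer_primesOver (𝔭 : Ideal A) (Q₀ : Ideal B) [Q₀.IsPrime]
    [Q₀.LiesOver 𝔭] (hle : stabilizer G Q₀ ≤ H) (hfin : (𝔭.primesOver B).Finite) :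
    ∑ Q ∈ hfin.toFinset, Nat.card (stabilizer G Q) = Nat.card H := by
  have horb : orbit H Q₀ = 𝔭.primesOver B := Algebra.IsInvariant.orbit_eq_primesOver A B H 𝔭 Q₀
  have hconst : ∀ Q ∈ hfin.toFinset, Nat.card (stabilizer G Q) = Nat.card (stabilizer G Q₀) := by
    intro Q hQ
    rw [Set.Finite.mem_toFinset, ← horb] at hQ
    obtain ⟨h, rfl⟩ := hQ
    exact card_stabilizer_smul (h : G) Q₀
  rw [Finset.sum_congr rfl hconst, Finset.sum_const, smul_eq_mul,
    ← Set.ncard_eq_toFinset_card _ hfin, ← horb, ← Nat.card_coe_set_eq]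
  have h1 : Nat.card (stabilizer G Q₀) = Nat.card (stabilizer H Q₀) := by
    rw [stabilizer_subgroup_eq]
    exact (Nat.card_congr (Subgroup.subgroupOfEquivOfLe hle).toEquiv).symm
  rw [h1, ← Nat.card_prod]
  exact Nat.card_congr (orbitProdStabilizerEquivGroup H Q₀)

end Under

end Fermat.Agent.Lib.Frob.H824
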