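/-
FROB (Frobenius density theorem), algebraic core, part 2 (helper824).

The counting identity at one rational prime `p`:
`∑_{Q ∣ p, D_Q ≤ H} |D_Q| = |H| · #{𝔭 prime of A over p with |A/𝔭| = |ℤ/p|}`.
-/
import Fermat.Agent.Lib.Frob.H824.Local

set_option autoImplicit false

namespace Fermat.Agent.Lib.Frob.H824

open Ideal Pointwise MulAction

section Count

variable {A B : Type*} [CommRing A] [CommRing B] [Algebra A B]
  {G : Type*} [Group G] [Finite G] [MulSemiringAction G B] [Algebra.IsInvariant ℤ B G]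
  (H : Subgroup G) [SMulCommClass H A B] [Algebra.IsInvariant A B H]

omit [Finite G] [Algebra.IsInvariant ℤ B G] in
theorem under_int_eq_of_under_eq {Q Q' : Ideal B} (h : Q.under A = Q'.under A) :
    Q.under ℤ = Q'.under ℤ := by
  rw [← Ideal.under_under (B := A) Q, h, Ideal.under_under]

/-- The set of "degree one" primes of `A` over the prime `p` of `ℤ`. -/
def degOnePrimes (A : Type*) [CommRing A] (p : Ideal ℤ) : Set (Ideal A) :=
  {𝔭 | 𝔭.IsPrime ∧ 𝔭.LiesOver p ∧ Nat.card (A ⧸ 𝔭) = Nat.card (ℤ ⧸ p)}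

open scoped Classical in
/-- **Counting identity.**  Let `p` be a prime of `ℤ` such that all primes `Q` of `B` over `p`
have trivial inertia (and finite residue fields).  Then
`∑_{Q ∣ p, D_Q ≤ H} |D_Q| = |H| · #{degree-one primes of A over p}`. -/
theorem sum_card_stabilizer_eq (hinj : Function.Injective (algebraMap A B))
    (p : Ideal ℤ) (hfin : (p.primesOver B).Finite)
    (hres : ∀ Q ∈ p.primesOver B, Finite (B ⧸ Q))
    (hgood : ∀ Q ∈ p.primesOver B, Q.inertia G = ⊥) :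
    ∑ Q ∈ hfin.toFinset.filter (fun Q => stabilizer G Q ≤ H), Nat.card (stabilizer G Q) =
      Nat.card H * (degOnePrimes A p).ncard := by
  have hint : Algebra.IsIntegral A B := Algebra.IsInvariant.isIntegral A B H
  set X := hfin.toFinset.filter (fun Q => stabilizer G Q ≤ H) with hX
  -- membership in `X`
  have hXmem : ∀ Q, Q ∈ X ↔ (Q.IsPrime ∧ Q.LiesOver p) ∧ stabilizer G Q ≤ H := by
    intro Q
    simp only [hX, Finset.mem_filter, Set.Finite.mem_toFinset]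
    rfl
  -- the image of `X` is the set of degree one primes
  have himage : ∀ 𝔭 : Ideal A, 𝔭 ∈ X.image (fun Q => Q.under A) ↔ 𝔭 ∈ degOnePrimes A p := by
    intro 𝔭
    simp only [Finset.mem_image, hXmem]
    constructor
    · rintro ⟨Q, ⟨⟨hQp, hQl⟩, hle⟩, rfl⟩
      have : Finite (B ⧸ Q) := hres Q ⟨hQp, hQl⟩
      refine ⟨Ideal.IsPrime.under A Q, ⟨?_⟩, ?_⟩
      · rw [Ideal.under_under, ← hQl.over]
      · rw [card_eq_of_stabilizer_le H Q hle, ← hQl.over]
    · rintro ⟨h𝔭p, h𝔭l, hcard⟩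
      obtain ⟨Q, hQp, hQ𝔭⟩ := Ideal.exists_ideal_over_prime_of_isIntegral 𝔭 (⊥ : Ideal B)
        (by rw [Ideal.comap_bot_of_injective _ hinj]; exact bot_le)
      have hQ𝔭' : Q.under A = 𝔭 := hQ𝔭.2
      have hQl : Q.LiesOver p := ⟨by
        have := h𝔭l.over
        rw [this, ← hQ𝔭', Ideal.under_under]⟩
      have hQpr : Q.IsPrime := hQ𝔭.1
      have : Finite (B ⧸ Q) := hres Q ⟨hQpr, hQl⟩
      refine ⟨Q, ⟨⟨hQpr, hQl⟩, ?_⟩, hQ𝔭'⟩
      apply stabilizer_le_of_card_eq (A := A) H Q (hgood Q ⟨hQpr, hQl⟩)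
      rw [hQ𝔭', hcard, ← hQl.over]
  have hY : (X.image (fun Q => Q.under A) : Set (Ideal A)) = degOnePrimes A p := by
    ext 𝔭
    rw [Finset.mem_coe, himage]
  -- fibrewise sum
  rw [← Finset.sum_fiberwise_of_maps_to (s := X) (t := X.image (fun Q => Q.under A))
    (g := fun Q => Q.under A) (fun Q hQ => Finset.mem_image_of_mem _ hQ)]
  have hfibre : ∀ 𝔭 ∈ X.image (fun Q => Q.under A),
      ∑ Q ∈ X with Q.under A = 𝔭, Nat.card (stabilizer G Q) = Nat.card H := by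
    intro 𝔭 h𝔭
    obtain ⟨Q₀, hQ₀, rfl⟩ := Finset.mem_image.mp h𝔭
    obtain ⟨⟨hQ₀p, hQ₀l⟩, hle₀⟩ := (hXmem Q₀).mp hQ₀
    have hfin₀ : Finite (B ⧸ Q₀) := hres Q₀ ⟨hQ₀p, hQ₀l⟩
    have hfin' : ((Q₀.under A).primesOver B).Finite := by
      apply hfin.subset
      rintro Q ⟨hQp, hQl⟩
      refine ⟨hQp, ⟨?_⟩⟩
      rw [hQ₀l.over]
      exact under_int_eq_of_under_eq (A := A) hQl.over
    have hLO : Q₀.LiesOver (Q₀.under A) := ⟨rfl⟩
    rw [← sum_card_stabilizer_primesOver H (Q₀.under A) Q₀ hle₀ hfin']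
    apply Finset.sum_congr _ (fun _ _ => rfl)
    ext Q
    simp only [Finset.mem_filter, hXmem, Set.Finite.mem_toFinset]
    constructor
    · rintro ⟨⟨⟨hQp, hQl⟩, _⟩, hQu⟩
      exact ⟨hQp, ⟨hQu.symm⟩⟩
    · rintro ⟨hQp, hQl⟩
      have hQu : Q.under A = Q₀.under A := hQl.over.symm
      have hQlp : Q.LiesOver p := ⟨by
        rw [hQ₀l.over]
        exact (under_int_eq_of_under_eq (A := A) hQu).symm⟩
      have : Finite (B ⧸ Q) := hres Q ⟨hQp, hQlp⟩
      refine ⟨⟨⟨hQp, hQlp⟩, ?_⟩, hQu⟩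
      apply stabilizer_le_of_card_eq (A := A) H Q (hgood Q ⟨hQp, hQlp⟩)
      rw [hQu, card_eq_of_stabilizer_le H Q₀ hle₀, ← hQ₀l.over, ← hQlp.over]
  rw [Finset.sum_congr rfl hfibre, Finset.sum_const, smul_eq_mul, mul_comm, ← hY,
    Set.ncard_coe_finset]

end Count

end Fermat.Agent.Lib.Frob.H824
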