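/-
FROB (Frobenius density theorem), algebraic core, part 3 (helper824).

Subgroups of a finite cyclic group `⟨g⟩` and the partition of a weighted sum over points with
stabilizer inside a subgroup `H ≤ ⟨g⟩` according to the order of the stabilizer.
-/
import Mathlib

set_option autoImplicit false

namespace Fermat.Agent.Lib.Frob.H824

open Subgroup

section Cyclic

variable {G : Type*} [Group G] [Finite G]

/-- A subgroup of `⟨g⟩` of order `k` is `⟨g ^ (n / k)⟩`, `n = orderOf g`. -/
theorem eq_zpowers_of_le_zpowers (g : G) (H : Subgroup G) (hH : H ≤ zpowers g) :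
    H = zpowers (g ^ (orderOf g / Nat.card H)) := by
  have hn : 0 < orderOf g := orderOf_pos g
  have hk : 0 < Nat.card H := Nat.card_pos
  have hkn : Nat.card H ∣ orderOf g := by
    rw [← Nat.card_zpowers]
    exact Subgroup.card_dvd_of_le hH
  have hcard : Nat.card (zpowers (g ^ (orderOf g / Nat.card H))) = Nat.card H := by
    rw [Nat.card_zpowers, orderOf_pow_of_dvd (Nat.div_pos (Nat.le_of_dvd hn hkn) hk).ne'
      (Nat.div_dvd_of_dvd hkn), Nat.div_div_self hkn hn.ne']
  refine Subgroup.eq_of_le_of_card_ge ?_ hcard.le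
  intro x hx
  obtain ⟨i, rfl⟩ := Subgroup.mem_zpowers_iff.mp (hH hx)
  have h1 : (g ^ i) ^ (Nat.card H) = 1 := by
    have := pow_card_eq_one' (G := H) (x := ⟨g ^ i, hx⟩)
    exact congrArg Subtype.val this
  rw [← zpow_natCast, ← zpow_mul, ← orderOf_dvd_iff_zpow_eq_one] at h1
  obtain ⟨c, hc⟩ := hkn
  have hc0 : (Nat.card H : ℤ) ≠ 0 := by exact_mod_cast hk.ne'
  have h2 : (c : ℤ) ∣ i := by
    rw [hc, Nat.cast_mul, mul_comm (Nat.card H : ℤ) c] at h1
    exact (mul_dvd_mul_iff_right hc0).mp h1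
  obtain ⟨j, rfl⟩ := h2
  have hdiv : orderOf g / Nat.card H = c := by
    rw [hc, Nat.mul_div_cancel_left _ hk]
  rw [hdiv, Subgroup.mem_zpowers_iff]
  exact ⟨j, by rw [← zpow_natCast, ← zpow_mul]⟩

/-- In a finite cyclic group, inclusion of subgroups is divisibility of orders. -/
theorem le_of_card_dvd_of_le_zpowers (g : G) (D H : Subgroup G) (hD : D ≤ zpowers g)
    (hH : H ≤ zpowers g) (hdvd : Nat.card D ∣ Nat.card H) : D ≤ H := by
  have hn : 0 < orderOf g := orderOf_pos g
  have hk : 0 < Nat.card H := Nat.card_pos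
  have hd : 0 < Nat.card D := Nat.card_pos
  have hkn : Nat.card H ∣ orderOf g := by
    rw [← Nat.card_zpowers]
    exact Subgroup.card_dvd_of_le hH
  rw [eq_zpowers_of_le_zpowers g D hD, eq_zpowers_of_le_zpowers g H hH, Subgroup.zpowers_le]
  obtain ⟨e, he⟩ := hdvd
  obtain ⟨c, hc⟩ := hkn
  have h1 : orderOf g / Nat.card D = (orderOf g / Nat.card H) * e := by
    rw [hc, Nat.mul_div_cancel_left _ hk, he, mul_assoc, Nat.mul_div_cancel_left _ hd, mul_comm]
  rw [h1, pow_mul]
  exact Subgroup.pow_mem _ (Subgroup.mem_zpowers _) _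

/-- For every divisor `k` of the order of `g` there is a subgroup of `⟨g⟩` of order `k`. -/
theorem exists_le_zpowers_card_eq (g : G) (k : ℕ) (hk : k ∣ orderOf g) :
    ∃ H : Subgroup G, H ≤ zpowers g ∧ Nat.card H = k := by
  have hn : 0 < orderOf g := orderOf_pos g
  have hk0 : 0 < k := Nat.pos_of_dvd_of_pos hk hn
  refine ⟨zpowers (g ^ (orderOf g / k)), ?_, ?_⟩
  · rw [Subgroup.zpowers_le]
    exact Subgroup.pow_mem _ (Subgroup.mem_zpowers _) _
  · rw [Nat.card_zpowers, orderOf_pow_of_dvd (Nat.div_pos (Nat.le_of_dvd hn hk) hk0).ne'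
      (Nat.div_dvd_of_dvd hk), Nat.div_div_self hk hn.ne']

open scoped Classical in
/-- Partition of the weighted count of points with stabilizer in `H ≤ ⟨g⟩` by the order of the
stabilizer. -/
theorem sum_card_partition {ι : Type*} (X : Finset ι) (D : ι → Subgroup G) (g : G)
    (H : Subgroup G) (hH : H ≤ zpowers g) :
    ∑ Q ∈ X.filter (fun Q => D Q ≤ H), Nat.card (D Q) =
      ∑ m ∈ (Nat.card H).divisors,
        m * (X.filter (fun Q => D Q ≤ zpowers g ∧ Nat.card (D Q) = m)).card := by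
  have hk : 0 < Nat.card H := Nat.card_pos
  rw [← Finset.sum_fiberwise_of_maps_to (s := X.filter (fun Q => D Q ≤ H))
    (t := (Nat.card H).divisors) (g := fun Q => Nat.card (D Q))
    (fun Q hQ => by
      rw [Finset.mem_filter] at hQ
      exact Nat.mem_divisors.mpr ⟨Subgroup.card_dvd_of_le hQ.2, hk.ne'⟩)]
  refine Finset.sum_congr rfl fun m hm => ?_
  have hmk : m ∣ Nat.card H := (Nat.mem_divisors.mp hm).1
  have hset : (X.filter (fun Q => D Q ≤ H)).filter (fun Q => Nat.card (D Q) = m) =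
      X.filter (fun Q => D Q ≤ zpowers g ∧ Nat.card (D Q) = m) := by
    ext Q
    simp only [Finset.mem_filter]
    constructor
    · rintro ⟨⟨hQ, hle⟩, hc⟩
      exact ⟨hQ, hle.trans hH, hc⟩
    · rintro ⟨hQ, hle, hc⟩
      exact ⟨⟨hQ, le_of_card_dvd_of_le_zpowers g (D Q) H hle hH (hc ▸ hmk)⟩, hc⟩
  rw [hset, Finset.sum_congr rfl (fun Q hQ => (Finset.mem_filter.mp hQ).2.2), Finset.sum_const,
    smul_eq_mul, mul_comm]

end Cyclic

end Fermat.Agent.Lib.Frob.H824
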