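/-
FROB (Frobenius density theorem), algebraic core, part 4 (helper824).

Bookkeeping with "logarithmic densities" of bounded sequences `c : ℕ → ℝ`:
`LogDens c a` means `∑' ℓ, c ℓ * ℓ ^ (-s) = a * log (1 / (s - 1)) + O(1)` on `(1, 2]`.
Pure real analysis, Mathlib only.

Main results:
* `LogDens.add`, `LogDens.sub`, `LogDens.const_mul`, `LogDens.finsetSum`, `LogDens.of_support`;
* `LogDens.mobius`: the Möbius-type induction giving density `φ(m)` from densities `k` of the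
  divisor sums;
* `LogDens.exists_ne_zero`: positive density ⇒ nonzero terms outside any finite set.
-/
import Mathlib

set_option autoImplicit false

namespace Fermat.Agent.Lib.Frob.H824

open Real

/-- `c : ℕ → ℝ` is bounded and `∑' ℓ, c ℓ * ℓ ^ (-s) - a * log (1 / (s - 1))` is bounded on
`(1, 2]`. -/
structure LogDens (c : ℕ → ℝ) (a : ℝ) : Prop where
  bdd : ∃ M : ℝ, ∀ ℓ, |c ℓ| ≤ M
  asymp : ∃ B : ℝ, ∀ s : ℝ, 1 < s → s ≤ 2 →
    |(∑' ℓ : ℕ, c ℓ * (ℓ : ℝ) ^ (-s)) - a * Real.log (1 / (s - 1))| ≤ B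

theorem summable_of_bdd {c : ℕ → ℝ} (hc : ∃ M : ℝ, ∀ ℓ, |c ℓ| ≤ M) {s : ℝ} (hs : 1 < s) :
    Summable (fun ℓ : ℕ => c ℓ * (ℓ : ℝ) ^ (-s)) := by
  obtain ⟨M, hM⟩ := hc
  have h1 : Summable (fun ℓ : ℕ => M * (ℓ : ℝ) ^ (-s)) :=
    (Real.summable_nat_rpow.mpr (by linarith)).mul_left M
  refine Summable.of_norm_bounded h1 fun ℓ => ?_
  rw [Real.norm_eq_abs, abs_mul, abs_of_nonneg (Real.rpow_nonneg (Nat.cast_nonneg ℓ) _)]
  exact mul_le_mul_of_nonneg_right (hM ℓ) (Real.rpow_nonneg (Nat.cast_nonneg ℓ) _)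

namespace LogDens

variable {c c' : ℕ → ℝ} {a a' : ℝ}

theorem summable (h : LogDens c a) {s : ℝ} (hs : 1 < s) :
    Summable (fun ℓ : ℕ => c ℓ * (ℓ : ℝ) ^ (-s)) :=
  summable_of_bdd h.bdd hs

theorem congr (h : LogDens c a) (hcc : ∀ ℓ, c ℓ = c' ℓ) : LogDens c' a := by
  have : c = c' := funext hcc
  rwa [← this]

theorem add (h : LogDens c a) (h' : LogDens c' a') : LogDens (fun ℓ => c ℓ + c' ℓ) (a + a') := by
  obtain ⟨M, hM⟩ := h.bdd
  obtain ⟨M', hM'⟩ := h'.bdd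
  obtain ⟨B, hB⟩ := h.asymp
  obtain ⟨B', hB'⟩ := h'.asymp
  refine ⟨⟨M + M', fun ℓ => (abs_add_le _ _).trans (add_le_add (hM ℓ) (hM' ℓ))⟩,
    ⟨B + B', fun s hs hs2 => ?_⟩⟩
  have e : (∑' ℓ : ℕ, (c ℓ + c' ℓ) * (ℓ : ℝ) ^ (-s)) =
      (∑' ℓ : ℕ, c ℓ * (ℓ : ℝ) ^ (-s)) + ∑' ℓ : ℕ, c' ℓ * (ℓ : ℝ) ^ (-s) := by
    rw [← (h.summable hs).tsum_add (h'.summable hs)]
    exact tsum_congr fun ℓ => add_mul _ _ _
  rw [e]
  have := abs_add_le ((∑' ℓ : ℕ, c ℓ * (ℓ : ℝ) ^ (-s)) - a * Real.log (1 / (s - 1)))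
    ((∑' ℓ : ℕ, c' ℓ * (ℓ : ℝ) ^ (-s)) - a' * Real.log (1 / (s - 1)))
  calc _ = |((∑' ℓ : ℕ, c ℓ * (ℓ : ℝ) ^ (-s)) - a * Real.log (1 / (s - 1))) +
        ((∑' ℓ : ℕ, c' ℓ * (ℓ : ℝ) ^ (-s)) - a' * Real.log (1 / (s - 1)))| := by
        congr 1; ring
    _ ≤ _ := this.trans (add_le_add (hB s hs hs2) (hB' s hs hs2))

theorem const_mul (h : LogDens c a) (r : ℝ) : LogDens (fun ℓ => r * c ℓ) (r * a) := by
  obtain ⟨M, hM⟩ := h.bdd
  obtain ⟨B, hB⟩ := h.asymp
  refine ⟨⟨|r| * M, fun ℓ => ?_⟩, ⟨|r| * B, fun s hs hs2 => ?_⟩⟩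
  · rw [abs_mul]
    exact mul_le_mul_of_nonneg_left (hM ℓ) (abs_nonneg r)
  · have e : (∑' ℓ : ℕ, (r * c ℓ) * (ℓ : ℝ) ^ (-s)) = r * ∑' ℓ : ℕ, c ℓ * (ℓ : ℝ) ^ (-s) := by
      rw [← tsum_mul_left]
      exact tsum_congr fun ℓ => mul_assoc _ _ _
    rw [e, mul_assoc, ← mul_sub, abs_mul]
    exact mul_le_mul_of_nonneg_left (hB s hs hs2) (abs_nonneg r)

theorem neg (h : LogDens c a) : LogDens (fun ℓ => - c ℓ) (-a) := by
  have := h.const_mul (-1)
  simpa using this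

theorem sub (h : LogDens c a) (h' : LogDens c' a') : LogDens (fun ℓ => c ℓ - c' ℓ) (a - a') := by
  have := h.add h'.neg
  simpa [sub_eq_add_neg] using this

theorem zero : LogDens (fun _ => (0 : ℝ)) 0 :=
  ⟨⟨0, fun _ => by simp⟩, ⟨0, fun s _ _ => by simp⟩⟩

theorem finsetSum {ι : Type*} (T : Finset ι) (u : ι → ℕ → ℝ) (d : ι → ℝ)
    (h : ∀ i ∈ T, LogDens (u i) (d i)) :
    LogDens (fun ℓ => ∑ i ∈ T, u i ℓ) (∑ i ∈ T, d i) := by
  classical
  induction T using Finset.induction_on with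
  | empty => simpa using LogDens.zero
  | insert i T hi ih =>
    have h1 := (h i (Finset.mem_insert_self i T)).add
      (ih fun j hj => h j (Finset.mem_insert_of_mem hj))
    rw [Finset.sum_insert hi]
    exact h1.congr fun ℓ => (Finset.sum_insert (f := fun j => u j ℓ) hi).symm

/-- A bounded sequence supported on a finite set has density `0`. -/
theorem of_support (S : Finset ℕ) (hc : ∀ ℓ, ℓ ∉ S → c ℓ = 0) : LogDens c 0 := by
  refine ⟨⟨∑ ℓ ∈ S, |c ℓ|, fun ℓ => ?_⟩, ⟨∑ ℓ ∈ S, |c ℓ|, fun s hs _ => ?_⟩⟩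
  · by_cases hℓ : ℓ ∈ S
    · exact Finset.single_le_sum (f := fun ℓ => |c ℓ|) (fun _ _ => abs_nonneg _) hℓ
    · rw [hc ℓ hℓ, abs_zero]
      exact Finset.sum_nonneg fun _ _ => abs_nonneg _
  · rw [zero_mul, sub_zero, tsum_eq_sum (s := S) (fun ℓ hℓ => by rw [hc ℓ hℓ, zero_mul])]
    refine (Finset.abs_sum_le_sum_abs _ _).trans (Finset.sum_le_sum fun ℓ _ => ?_)
    rw [abs_mul]
    have h1 : |(ℓ : ℝ) ^ (-s)| ≤ 1 := by
      rw [abs_of_nonneg (Real.rpow_nonneg (Nat.cast_nonneg ℓ) _)]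
      rcases Nat.eq_zero_or_pos ℓ with h0 | h0
      · subst h0
        rw [Nat.cast_zero, Real.zero_rpow (by linarith)]
        exact zero_le_one
      · exact Real.rpow_le_one_of_one_le_of_nonpos (by exact_mod_cast h0) (by linarith)
    calc |c ℓ| * |(ℓ : ℝ) ^ (-s)| ≤ |c ℓ| * 1 :=
          mul_le_mul_of_nonneg_left h1 (abs_nonneg _)
      _ = |c ℓ| := mul_one _

/-- Changing a sequence on a finite set does not change its density. -/
theorem of_eq_off (h : LogDens c a) (S : Finset ℕ) (hc : ∀ ℓ, ℓ ∉ S → c' ℓ = c ℓ) :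
    LogDens c' a := by
  have h0 : LogDens (fun ℓ => c' ℓ - c ℓ) 0 :=
    of_support S fun ℓ hℓ => by rw [hc ℓ hℓ, sub_self]
  have := h.add h0
  rw [add_zero] at this
  exact this.congr fun ℓ => by ring

/-- The density is unique: in particular a sequence of density `a ≠ 0` cannot have
density `0`. -/
theorem eq_of_eq (h : LogDens c a) (h' : LogDens c a') : a = a' := by
  by_contra hne
  have h0 := h.sub h'
  obtain ⟨B, hB⟩ := h0.asymp
  have hd : 0 < |a - a'| := abs_pos.mpr (sub_ne_zero.mpr hne)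
  -- choose `s` with `log (1 / (s - 1)) = |B| / |a - a'| + 1`
  set t : ℝ := |B| / |a - a'| + 1 with ht
  have htpos : 0 < t := by positivity
  set s : ℝ := 1 + Real.exp (-t) with hs
  have hs1 : 1 < s := by rw [hs]; linarith [Real.exp_pos (-t)]
  have hs2 : s ≤ 2 := by
    have : Real.exp (-t) ≤ 1 := Real.exp_le_one_iff.mpr (by linarith)
    rw [hs]; linarith
  have hlog : Real.log (1 / (s - 1)) = t := by
    rw [hs, add_sub_cancel_left, one_div, ← Real.exp_neg, neg_neg, Real.log_exp]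
  have := hB s hs1 hs2
  simp only [sub_self, zero_mul, tsum_zero, zero_sub, abs_neg] at this
  rw [hlog, abs_mul, abs_of_pos htpos, ht, mul_add, mul_one, mul_div_cancel₀ _ hd.ne'] at this
  linarith [le_abs_self B]

/-- Positive density implies nonzero terms outside any finite set. -/
theorem exists_ne_zero (h : LogDens c a) (ha : a ≠ 0) (S : Finset ℕ) :
    ∃ ℓ, ℓ ∉ S ∧ c ℓ ≠ 0 := by
  by_contra hcon
  simp only [not_exists, not_and, not_not] at hcon
  exact ha (h.eq_of_eq (of_support S hcon))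

/-- **Möbius-type induction.**  If for every divisor `k` of `n` the divisor sum
`∑_{m ∣ k} u m` has density `k`, then `u m` has density `φ(m)` for every `m ∣ n`. -/
theorem mobius (n : ℕ) (u : ℕ → ℕ → ℝ)
    (hsum : ∀ k, k ∣ n → LogDens (fun ℓ => ∑ m ∈ k.divisors, u m ℓ) k) (hn : n ≠ 0) :
    ∀ m, m ∣ n → LogDens (u m) (Nat.totient m) := by
  intro m
  induction m using Nat.strong_induction_on with
  | _ m ih =>
    intro hm
    have hm0 : m ≠ 0 := fun h => hn (by rw [h] at hm; exact Nat.eq_zero_of_zero_dvd hm)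
    have hprop : LogDens (fun ℓ => ∑ d ∈ m.properDivisors, u d ℓ)
        (∑ d ∈ m.properDivisors, (Nat.totient d : ℝ)) :=
      finsetSum _ _ _ fun d hd =>
        ih d (Nat.mem_properDivisors.mp hd).2 ((Nat.mem_properDivisors.mp hd).1.trans hm)
    have h1 := (hsum m hm).sub hprop
    have hφ : (m : ℝ) - ∑ d ∈ m.properDivisors, (Nat.totient d : ℝ) = (Nat.totient m : ℝ) := by
      have := Nat.sum_totient m
      rw [← Nat.cons_self_properDivisors hm0, Finset.sum_cons] at this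
      have h2 : ((Nat.totient m + ∑ d ∈ m.properDivisors, Nat.totient d : ℕ) : ℝ) = (m : ℝ) := by
        exact_mod_cast this
      push_cast at h2
      linarith
    rw [hφ] at h1
    refine h1.congr fun ℓ => ?_
    rw [← Nat.cons_self_properDivisors hm0, Finset.sum_cons]
    ring

end LogDens

end Fermat.Agent.Lib.Frob.H824
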