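/-
FROB (Frobenius density theorem), algebraic core, part 5 (helper824): number fields.

`exists_frobenius_generates`: let `L/ℚ` be a finite Galois extension, `g ∈ Gal(L/ℚ)` and `S` a
finite set of primes.  Assume the analytic input `F1Statement` (the prime ideals of prime norm
have logarithmic density `1`) for the fixed fields of the subgroups of `⟨g⟩`.  Then there are a
prime `ℓ ∉ S`, a prime `Q` of `𝓞 L` above `ℓ` with trivial inertia group and an arithmetic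
Frobenius `τ` at `Q` with `⟨τ⟩ = ⟨g⟩` (and `⟨g⟩` is the decomposition group of `Q`).
-/
import Fermat.Agent.Lib.Frob.H824.Count
import Fermat.Agent.Lib.Frob.H824.Cyclic
import Fermat.Agent.Lib.Frob.H824.Density

set_option autoImplicit false

namespace Fermat.Agent.Lib.Frob.H824

open NumberField Ideal Pointwise MulAction

/-- The number of prime ideals of `𝓞 F` of norm `ℓ`, for `ℓ` prime (and `0` otherwise). -/
noncomputable def primeIdealCount (F : Type*) [Field F] [NumberField F] (ℓ : ℕ) : ℝ :=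
  if ℓ.Prime then (({𝔭 : Ideal (𝓞 F) | 𝔭.IsPrime ∧ Ideal.absNorm 𝔭 = ℓ}).ncard : ℝ) else 0

/-- The analytic input **F1** for the number field `F`:
`∑_{ℓ prime} #{𝔭 ⊂ 𝓞 F prime : N 𝔭 = ℓ} · ℓ^(-s) = log (1/(s-1)) + O(1)` on `(1, 2]`. -/
def F1Statement (F : Type*) [Field F] [NumberField F] : Prop :=
  ∃ B : ℝ, ∀ s : ℝ, 1 < s → s ≤ 2 →
    |(∑' ℓ : ℕ, primeIdealCount F ℓ * (ℓ : ℝ) ^ (-s)) - Real.log (1 / (s - 1))| ≤ B

section Good

variable (L : Type*) [Field L] [NumberField L] [IsGalois ℚ L]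

/-- For all but finitely many primes `ℓ`, the inertia groups at all primes of `𝓞 L` above `ℓ`
are trivial. -/
theorem exists_bad_finset :
    ∃ bad : Finset ℕ, ∀ ℓ : ℕ, ℓ.Prime → ℓ ∉ bad →
      ∀ Q : Ideal (𝓞 L), Q.IsPrime → Q.LiesOver (Ideal.span {(ℓ : ℤ)}) →
        Q.inertia Gal(L/ℚ) = ⊥ := by
  classical
  have hfaith : FaithfulSMul Gal(L/ℚ) (𝓞 L) := IsGaloisGroup.faithful ℤ
  cases nonempty_fintype Gal(L/ℚ)
  -- for each `σ ≠ 1` choose `x` with `σ • x ≠ x`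
  have hx : ∀ σ : Gal(L/ℚ), ∃ x : 𝓞 L, σ ≠ 1 → σ • x - x ≠ 0 := by
    intro σ
    by_cases hσ : σ = 1
    · exact ⟨0, fun h => absurd hσ h⟩
    · have : ∃ x : 𝓞 L, σ • x ≠ x := by
        by_contra hcon
        simp only [not_exists, not_not] at hcon
        exact hσ (hfaith.eq_of_smul_eq_smul (fun x => by rw [hcon x, one_smul]))
      obtain ⟨x, hx⟩ := this
      exact ⟨x, fun _ => sub_ne_zero.mpr hx⟩
  choose x hx using hx
  set δ : 𝓞 L := ∏ σ ∈ Finset.univ.filter (fun σ : Gal(L/ℚ) => σ ≠ 1), (σ • x σ - x σ) with hδ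
  have hδ0 : δ ≠ 0 := by
    rw [hδ, Finset.prod_ne_zero_iff]
    intro σ hσ
    exact hx σ (Finset.mem_filter.mp hσ).2
  set M : ℕ := Ideal.absNorm (Ideal.span {δ}) with hM
  have hM0 : M ≠ 0 := by
    rw [hM, Ne, Ideal.absNorm_eq_zero_iff, Ideal.span_singleton_eq_bot]
    exact hδ0
  refine ⟨M.primeFactors, fun ℓ hℓ hbad Q hQp hQl => ?_⟩
  rw [Subgroup.eq_bot_iff_forall]
  intro σ hσ
  by_contra hσ1
  apply hbad
  rw [Nat.mem_primeFactors]
  refine ⟨hℓ, ?_, hM0⟩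
  -- `δ ∈ Q`
  have hδQ : δ ∈ Q := by
    rw [hδ]
    exact Ideal.prod_mem Q (Finset.mem_filter.mpr ⟨Finset.mem_univ σ, hσ1⟩) (hσ (x σ))
  have h1 : Ideal.absNorm Q ∣ M :=
    Ideal.absNorm_dvd_absNorm_of_le ((Ideal.span_singleton_le_iff_mem Q).mpr hδQ)
  have h2 : ℓ ∣ Ideal.absNorm Q := by
    have hmem : ((Ideal.absNorm Q : ℤ)) ∈ Q.under ℤ := by
      rw [Ideal.under_def, Ideal.mem_comap]
      simpa using Ideal.absNorm_mem Q
    rw [← hQl.over, Ideal.mem_span_singleton] at hmem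
    exact_mod_cast hmem
  exact h2.trans h1

end Good

section DegOne

variable (F : Type*) [Field F] [NumberField F]

/-- For a prime number `ℓ`, the degree-one primes of `𝓞 F` over `ℓ` are the primes of
norm `ℓ`. -/
theorem degOnePrimes_eq {ℓ : ℕ} (hℓ : ℓ.Prime) :
    degOnePrimes (𝓞 F) (Ideal.span {(ℓ : ℤ)}) =
      {𝔭 : Ideal (𝓞 F) | 𝔭.IsPrime ∧ Ideal.absNorm 𝔭 = ℓ} := by
  ext 𝔭
  simp only [degOnePrimes, Set.mem_ofPred_eq, Int.card_ideal_quot]
  have hcard : Nat.card (𝓞 F ⧸ 𝔭) = Ideal.absNorm 𝔭 := by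
    rw [Ideal.absNorm_apply, Submodule.cardQuot_apply]
  rw [hcard]
  constructor
  · rintro ⟨h1, _, h3⟩
    exact ⟨h1, h3⟩
  · rintro ⟨h1, h3⟩
    refine ⟨h1, ⟨?_⟩, h3⟩
    have hmax : (Ideal.span {(ℓ : ℤ)}).IsMaximal :=
      PrincipalIdealRing.isMaximal_of_irreducible
        (Nat.prime_iff_prime_int.mp hℓ).irreducible
    have hle : Ideal.span {(ℓ : ℤ)} ≤ 𝔭.under ℤ := by
      rw [Ideal.span_singleton_le_iff_mem, Ideal.under_def, Ideal.mem_comap]
      have := Ideal.absNorm_mem 𝔭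
      rw [h3] at this
      simpa using this
    have hne : 𝔭.under ℤ ≠ ⊤ := (Ideal.IsPrime.under ℤ 𝔭).ne_top
    exact hmax.eq_of_le hne hle

end DegOne

section Main

variable (L : Type*) [Field L] [NumberField L] [IsGalois ℚ L]

/-- The fixed field of a subgroup of `Gal(L/ℚ)`. -/
noncomputable abbrev fixedF (H : Subgroup Gal(L/ℚ)) : IntermediateField ℚ L :=
  FixedPoints.intermediateField H

theorem isGaloisGroup_fixedF (H : Subgroup Gal(L/ℚ)) :
    IsGaloisGroup H (𝓞 (fixedF L H)) (𝓞 L) :=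
  IsGaloisGroup.of_isFractionRing H (𝓞 (fixedF L H)) (𝓞 L) (fixedF L H) L

/-- The finite set of primes of `𝓞 L` above `ℓ`. -/
noncomputable def primesAbove (ℓ : ℕ) : Finset (Ideal (𝓞 L)) :=
  (Algebra.QuasiFinite.finite_primesOver (S := 𝓞 L) (Ideal.span {(ℓ : ℤ)})).toFinset

omit [IsGalois ℚ L] in
theorem mem_primesAbove {ℓ : ℕ} {Q : Ideal (𝓞 L)} :
    Q ∈ primesAbove L ℓ ↔ Q.IsPrime ∧ Q.LiesOver (Ideal.span {(ℓ : ℤ)}) := by
  rw [primesAbove, Set.Finite.mem_toFinset]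
  rfl

theorem card_primesAbove_le (ℓ : ℕ) : (primesAbove L ℓ).card ≤ Nat.card Gal(L/ℚ) := by
  classical
  cases nonempty_fintype Gal(L/ℚ)
  rcases (primesAbove L ℓ).eq_empty_or_nonempty with h | ⟨Q₀, hQ₀⟩
  · rw [h, Finset.card_empty]; exact Nat.zero_le _
  · obtain ⟨hQ₀p, hQ₀l⟩ := (mem_primesAbove L).mp hQ₀
    have hsub : primesAbove L ℓ ⊆ Finset.univ.image (fun σ : Gal(L/ℚ) => σ • Q₀) := by
      intro Q hQ
      obtain ⟨hQp, hQl⟩ := (mem_primesAbove L).mp hQ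
      obtain ⟨σ, hσ⟩ := Algebra.IsInvariant.exists_smul_of_under_eq ℤ (𝓞 L) Gal(L/ℚ) Q₀ Q
        (hQ₀l.over.symm.trans hQl.over)
      exact Finset.mem_image.mpr ⟨σ, Finset.mem_univ σ, hσ.symm⟩
    calc (primesAbove L ℓ).card ≤ (Finset.univ.image (fun σ : Gal(L/ℚ) => σ • Q₀)).card :=
          Finset.card_le_card hsub
      _ ≤ (Finset.univ : Finset Gal(L/ℚ)).card := Finset.card_image_le
      _ = Nat.card Gal(L/ℚ) := by rw [Finset.card_univ, Nat.card_eq_fintype_card]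

open scoped Classical in
/-- `m` times the number of primes above `ℓ` whose decomposition group is the subgroup of order
`m` of `⟨g⟩`, for `ℓ` a prime outside the finite set `bad`. -/
noncomputable def decompWeight (g : Gal(L/ℚ)) (bad : Finset ℕ) (m ℓ : ℕ) : ℝ :=
  if ℓ.Prime ∧ ℓ ∉ bad then
    ((m * ((primesAbove L ℓ).filter (fun Q => stabilizer Gal(L/ℚ) Q ≤ Subgroup.zpowers g ∧
      Nat.card (stabilizer Gal(L/ℚ) Q) = m)).card : ℕ) : ℝ)
  else 0

theorem primeIdealCount_nonneg (F : Type*) [Field F] [NumberField F] (ℓ : ℕ) :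
    0 ≤ primeIdealCount F ℓ := by
  unfold primeIdealCount
  split_ifs
  · exact Nat.cast_nonneg _
  · exact le_rfl

omit [IsGalois ℚ L] in
theorem decompWeight_nonneg (g : Gal(L/ℚ)) (bad : Finset ℕ) (m ℓ : ℕ) :
    0 ≤ decompWeight L g bad m ℓ := by
  unfold decompWeight
  split_ifs
  · exact Nat.cast_nonneg _
  · exact le_rfl

theorem decompWeight_le (g : Gal(L/ℚ)) (bad : Finset ℕ) (m ℓ : ℕ) :
    decompWeight L g bad m ℓ ≤ m * Nat.card Gal(L/ℚ) := by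
  classical
  unfold decompWeight
  split_ifs
  · rw [Nat.cast_mul]
    refine mul_le_mul_of_nonneg_left ?_ (Nat.cast_nonneg m)
    exact_mod_cast (Finset.card_filter_le _ _).trans (card_primesAbove_le L ℓ)
  · positivity

/-- The counting identity at a good prime: for `H ≤ ⟨g⟩`,
`|H| · #{primes of the fixed field of H of norm ℓ} = ∑_{m ∣ |H|} decompWeight m ℓ`. -/
theorem card_mul_primeIdealCount (g : Gal(L/ℚ)) (bad : Finset ℕ)
    (hbad : ∀ ℓ : ℕ, ℓ.Prime → ℓ ∉ bad → ∀ Q : Ideal (𝓞 L), Q.IsPrime →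
      Q.LiesOver (Ideal.span {(ℓ : ℤ)}) → Q.inertia Gal(L/ℚ) = ⊥)
    (H : Subgroup Gal(L/ℚ)) (hH : H ≤ Subgroup.zpowers g) (ℓ : ℕ) (hℓ : ℓ.Prime)
    (hℓbad : ℓ ∉ bad) :
    (Nat.card H : ℝ) * primeIdealCount (fixedF L H) ℓ =
      ∑ m ∈ (Nat.card H).divisors, decompWeight L g bad m ℓ := by
  classical
  have hGal := isGaloisGroup_fixedF L H
  have hinv : Algebra.IsInvariant (𝓞 (fixedF L H)) (𝓞 L) H := hGal.isInvariant
  have hcomm : SMulCommClass H (𝓞 (fixedF L H)) (𝓞 L) := hGal.commutes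
  have hinj : Function.Injective (algebraMap (𝓞 (fixedF L H)) (𝓞 L)) :=
    FaithfulSMul.algebraMap_injective _ _
  have hℓ0 : (ℓ : ℤ) ≠ 0 := by exact_mod_cast hℓ.ne_zero
  have hres : ∀ Q ∈ (Ideal.span {(ℓ : ℤ)}).primesOver (𝓞 L), Finite (𝓞 L ⧸ Q) := by
    rintro Q ⟨hQp, hQl⟩
    have hQ0 : Q ≠ ⊥ := by
      intro h0
      have h1 := hQl.over
      rw [h0, Ideal.under_bot, Ideal.span_singleton_eq_bot] at h1
      exact hℓ0 h1
    exact Ideal.finiteQuotientOfFreeOfNeBot Q hQ0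
  have hgood : ∀ Q ∈ (Ideal.span {(ℓ : ℤ)}).primesOver (𝓞 L), Q.inertia Gal(L/ℚ) = ⊥ :=
    fun Q hQ => hbad ℓ hℓ hℓbad Q hQ.1 hQ.2
  have key := sum_card_stabilizer_eq (A := 𝓞 (fixedF L H)) (B := 𝓞 L) (G := Gal(L/ℚ)) H hinj
    (Ideal.span {(ℓ : ℤ)}) (Algebra.QuasiFinite.finite_primesOver _) hres hgood
  have hpart := sum_card_partition (primesAbove L ℓ) (fun Q => stabilizer Gal(L/ℚ) Q) g H hH
  have hcount : primeIdealCount (fixedF L H) ℓ =
      ((degOnePrimes (𝓞 (fixedF L H)) (Ideal.span {(ℓ : ℤ)})).ncard : ℝ) := by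
    rw [primeIdealCount, if_pos hℓ, degOnePrimes_eq _ hℓ]
  rw [hcount, ← Nat.cast_mul, ← key]
  change ((∑ Q ∈ (primesAbove L ℓ).filter (fun Q => stabilizer Gal(L/ℚ) Q ≤ H),
    Nat.card (stabilizer Gal(L/ℚ) Q) : ℕ) : ℝ) = _
  rw [hpart, Nat.cast_sum]
  refine Finset.sum_congr rfl fun m _ => ?_
  rw [decompWeight, if_pos ⟨hℓ, hℓbad⟩]

/-- The divisor sums of `decompWeight` have logarithmic density `k`, given **F1** for the
fixed field of the subgroup of order `k` of `⟨g⟩`. -/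
theorem logDens_sum_decompWeight (g : Gal(L/ℚ)) (bad : Finset ℕ)
    (hbad : ∀ ℓ : ℕ, ℓ.Prime → ℓ ∉ bad → ∀ Q : Ideal (𝓞 L), Q.IsPrime →
      Q.LiesOver (Ideal.span {(ℓ : ℤ)}) → Q.inertia Gal(L/ℚ) = ⊥)
    (H : Subgroup Gal(L/ℚ)) (hH : H ≤ Subgroup.zpowers g) (hF1 : F1Statement (fixedF L H)) :
    LogDens (fun ℓ => ∑ m ∈ (Nat.card H).divisors, decompWeight L g bad m ℓ) (Nat.card H) := by
  have hk : (0 : ℝ) < Nat.card H := by exact_mod_cast Nat.card_pos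
  have hk1 : (1 : ℝ) ≤ Nat.card H := by exact_mod_cast Nat.card_pos
  -- the identity off the bad set
  have hid : ∀ ℓ, ℓ ∉ bad → ∑ m ∈ (Nat.card H).divisors, decompWeight L g bad m ℓ =
      (Nat.card H : ℝ) * primeIdealCount (fixedF L H) ℓ := by
    intro ℓ hℓbad
    by_cases hℓ : ℓ.Prime
    · exact (card_mul_primeIdealCount L g bad hbad H hH ℓ hℓ hℓbad).symm
    · rw [primeIdealCount, if_neg hℓ, mul_zero]
      refine Finset.sum_eq_zero fun m _ => ?_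
      rw [decompWeight, if_neg (fun h => hℓ h.1)]
  -- boundedness of `primeIdealCount`
  set M₀ : ℝ := ∑ m ∈ (Nat.card H).divisors, (m : ℝ) * Nat.card Gal(L/ℚ) with hM₀
  have hM₀ : ∀ ℓ, ∑ m ∈ (Nat.card H).divisors, decompWeight L g bad m ℓ ≤ M₀ :=
    fun ℓ => Finset.sum_le_sum fun m _ => decompWeight_le L g bad m ℓ
  have hM₀0 : 0 ≤ M₀ := by positivity
  have hbdd : ∃ M : ℝ, ∀ ℓ, |primeIdealCount (fixedF L H) ℓ| ≤ M := by
    refine ⟨M₀ + ∑ ℓ' ∈ bad, primeIdealCount (fixedF L H) ℓ', fun ℓ => ?_⟩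
    rw [abs_of_nonneg (primeIdealCount_nonneg _ ℓ)]
    have hsum0 : 0 ≤ ∑ ℓ' ∈ bad, primeIdealCount (fixedF L H) ℓ' :=
      Finset.sum_nonneg fun _ _ => primeIdealCount_nonneg _ _
    by_cases hℓbad : ℓ ∈ bad
    · have := Finset.single_le_sum (f := fun ℓ' => primeIdealCount (fixedF L H) ℓ')
        (fun _ _ => primeIdealCount_nonneg _ _) hℓbad
      linarith
    · have h1 := hid ℓ hℓbad
      have h2 := hM₀ ℓ
      have h3 : primeIdealCount (fixedF L H) ℓ ≤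
          (Nat.card H : ℝ) * primeIdealCount (fixedF L H) ℓ :=
        le_mul_of_one_le_left (primeIdealCount_nonneg _ ℓ) hk1
      linarith
  have hLD : LogDens (primeIdealCount (fixedF L H)) 1 := by
    refine ⟨hbdd, ?_⟩
    obtain ⟨B, hB⟩ := hF1
    exact ⟨B, fun s hs hs2 => by simpa using hB s hs hs2⟩
  have hLD' := hLD.const_mul (Nat.card H : ℝ)
  rw [mul_one] at hLD'
  exact hLD'.of_eq_off bad hid

/-- **Frobenius density theorem, qualitative form (number field level).**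
Let `L/ℚ` be a finite Galois extension, `g ∈ Gal(L/ℚ)`, and `S` a finite set of primes.  Given
the analytic input `F1Statement` for the fixed fields of the subgroups of `⟨g⟩`, there are a
prime `ℓ ∉ S`, a prime `Q` of `𝓞 L` above `ℓ` with trivial inertia, and an arithmetic Frobenius
`τ` at `Q` such that `⟨τ⟩ = ⟨g⟩`. -/
theorem exists_frobenius_generates (g : Gal(L/ℚ))
    (hF1 : ∀ H : Subgroup Gal(L/ℚ), H ≤ Subgroup.zpowers g → F1Statement (fixedF L H))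
    (S : Finset ℕ) :
    ∃ (ℓ : ℕ) (Q : Ideal (𝓞 L)) (τ : Gal(L/ℚ)), ℓ.Prime ∧ ℓ ∉ S ∧ Q.IsPrime ∧
      Q.LiesOver (Ideal.span {(ℓ : ℤ)}) ∧ Q.inertia Gal(L/ℚ) = ⊥ ∧
      IsArithFrobAt ℤ τ Q ∧ Subgroup.zpowers τ = Subgroup.zpowers g ∧
      stabilizer Gal(L/ℚ) Q = Subgroup.zpowers g := by
  classical
  obtain ⟨bad, hbad⟩ := exists_bad_finset L
  have hn : orderOf g ≠ 0 := (orderOf_pos g).ne'
  have hsum : ∀ k, k ∣ orderOf g →
      LogDens (fun ℓ => ∑ m ∈ k.divisors, decompWeight L g bad m ℓ) k := by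
    intro k hk
    obtain ⟨H, hH, hcard⟩ := exists_le_zpowers_card_eq g k hk
    have := logDens_sum_decompWeight L g bad hbad H hH (hF1 H hH)
    rwa [hcard] at this
  have hdens := LogDens.mobius (orderOf g) (decompWeight L g bad) hsum hn (orderOf g) dvd_rfl
  have hφ : ((Nat.totient (orderOf g) : ℕ) : ℝ) ≠ 0 := by
    exact_mod_cast (Nat.totient_pos.mpr (orderOf_pos g)).ne'
  obtain ⟨ℓ, hℓS, hℓne⟩ := hdens.exists_ne_zero hφ S
  -- unfold the weight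
  unfold decompWeight at hℓne
  split_ifs at hℓne with hcond
  swap
  · exact absurd rfl hℓne
  obtain ⟨hℓ, hℓbad⟩ := hcond
  have hne : ((primesAbove L ℓ).filter (fun Q => stabilizer Gal(L/ℚ) Q ≤ Subgroup.zpowers g ∧
      Nat.card (stabilizer Gal(L/ℚ) Q) = orderOf g)).Nonempty := by
    rw [Finset.nonempty_iff_ne_empty]
    intro h0
    apply hℓne
    rw [h0, Finset.card_empty, mul_zero, Nat.cast_zero]
  obtain ⟨Q, hQ⟩ := hne
  rw [Finset.mem_filter, mem_primesAbove] at hQ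
  obtain ⟨⟨hQp, hQl⟩, hle, hcard⟩ := hQ
  have hstab : stabilizer Gal(L/ℚ) Q = Subgroup.zpowers g :=
    Subgroup.eq_of_le_of_card_ge hle (by rw [hcard, Nat.card_zpowers])
  have hℓ0 : (ℓ : ℤ) ≠ 0 := by exact_mod_cast hℓ.ne_zero
  have hQ0 : Q ≠ ⊥ := by
    intro h0
    have h1 := hQl.over
    rw [h0, Ideal.under_bot, Ideal.span_singleton_eq_bot] at h1
    exact hℓ0 h1
  have hfin : Finite (𝓞 L ⧸ Q) := Ideal.finiteQuotientOfFreeOfNeBot Q hQ0
  have hI := hbad ℓ hℓ hℓbad Q hQp hQl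
  obtain ⟨τ, hτ⟩ := IsArithFrobAt.exists_of_isInvariant ℤ Gal(L/ℚ) Q
  refine ⟨ℓ, Q, τ, hℓ, hℓS, hQp, hQl, hI, hτ, ?_, hstab⟩
  rw [← stabilizer_eq_zpowers Q hI τ hτ, hstab]

end Main

end Fermat.Agent.Lib.Frob.H824
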